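/-
S15, block C (moduli dictionary), local part (helper226).

`Sing v W x y` : the affine point `(x, y)` is integral and reduces to a singular point of the
reduction of the integral Weierstrass equation `W`.  Main result `not_sing_third`: if three points of
`W` lie on a line and two of them are not `Sing`, neither is the third one.  (So the points with
nonsingular reduction form a subgroup; see `ZeroComp.lean`.)  No hypothesis on the reduction type.
Mathlib only.
-/
import Mathlib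

set_option autoImplicit false

namespace Fermat.Agent.S15.Dict.LocZ

open WeierstrassCurve WeierstrassCurve.Affine

variable {K : Type*} [Field K] {Γ₀ : Type*} [LinearOrderedCommGroupWithZero Γ₀]
  (v : Valuation K Γ₀)

/-! ### small valuation lemmas -/

section Val

variable {v}

theorem vle_add {x y : K} (hx : v x ≤ 1) (hy : v y ≤ 1) : v (x + y) ≤ 1 :=
  (v.map_add x y).trans (max_le hx hy)

theorem vle_sub {x y : K} (hx : v x ≤ 1) (hy : v y ≤ 1) : v (x - y) ≤ 1 :=
  (v.map_sub x y).trans (max_le hx hy)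

theorem vle_neg {x : K} (hx : v x ≤ 1) : v (-x) ≤ 1 := by rwa [v.map_neg]

theorem vle_mul {x y : K} (hx : v x ≤ 1) (hy : v y ≤ 1) : v (x * y) ≤ 1 := by
  rw [v.map_mul]; exact mul_le_one' hx hy

theorem vle_pow {x : K} (hx : v x ≤ 1) (n : ℕ) : v (x ^ n) ≤ 1 := by
  rw [v.map_pow]; exact pow_le_one' hx n

theorem vle_nat (n : ℕ) : v (n : K) ≤ 1 := by
  induction n with
  | zero => simp
  | succ n ih => push_cast; exact vle_add ih (by simp)

theorem vle_two : v (2 : K) ≤ 1 := by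
  have := vle_nat (v := v) 2
  simpa using this

theorem vle_three : v (3 : K) ≤ 1 := by
  have := vle_nat (v := v) 3
  simpa using this

theorem vlt_add {x y : K} (hx : v x < 1) (hy : v y < 1) : v (x + y) < 1 :=
  v.map_add_lt hx hy

theorem vlt_sub {x y : K} (hx : v x < 1) (hy : v y < 1) : v (x - y) < 1 :=
  v.map_sub_lt hx hy

theorem vlt_neg {x : K} (hx : v x < 1) : v (-x) < 1 := by rwa [v.map_neg]

theorem vlt_mul_left {x y : K} (hx : v x < 1) (hy : v y ≤ 1) : v (x * y) < 1 := by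
  rw [v.map_mul]; exact mul_lt_one_of_lt_of_le hx hy

theorem vlt_mul_right {x y : K} (hx : v x ≤ 1) (hy : v y < 1) : v (x * y) < 1 := by
  rw [mul_comm]; exact vlt_mul_left hy hx

/-- If the sum and the product of two elements are integral, so are the elements. -/
theorem vle_of_add_mul {s t : K} (h₁ : v (s + t) ≤ 1) (h₂ : v (s * t) ≤ 1) : v s ≤ 1 := by
  by_contra hs
  rw [not_le] at hs
  have ht : v t < 1 := by
    by_contra ht
    rw [not_lt] at ht
    have : 1 < v s * v t := by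
      calc (1 : Γ₀) < v s := hs
        _ = v s * 1 := (mul_one _).symm
        _ ≤ v s * v t := mul_le_mul_right ht _
    rw [map_mul] at h₂
    exact absurd h₂ (not_le.mpr this)
  have h3 : v (s + t) = v s := Valuation.map_add_eq_of_lt_left v (ht.trans hs)
  rw [h3] at h₁
  exact absurd h₁ (not_le.mpr hs)

/-- A root of a monic quadratic polynomial with integral coefficients is integral. -/
theorem vle_of_quad {t b c : K} (hb : v b ≤ 1) (hc : v c ≤ 1) (h : t ^ 2 + b * t = c) :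
    v t ≤ 1 := by
  refine vle_of_add_mul (t := -b - t) ?_ ?_
  · have : t + (-b - t) = -b := by ring
    rw [this]; exact vle_neg hb
  · have : t * (-b - t) = -c := by linear_combination -h
    rw [this]; exact vle_neg hc

end Val

/-! ### integral Weierstrass equations, singular reduction -/

variable (W : Affine K)

/-- The coefficients of `W` are integral. -/
structure IntCoeff : Prop where
  a₁ : v W.a₁ ≤ 1
  a₂ : v W.a₂ ≤ 1
  a₃ : v W.a₃ ≤ 1
  a₄ : v W.a₄ ≤ 1
  a₆ : v W.a₆ ≤ 1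

/-- `(x, y)` is integral and both partial derivatives of the equation vanish modulo the maximal
ideal. -/
def Sing (x y : K) : Prop :=
  v x ≤ 1 ∧ v y ≤ 1 ∧ v (2 * y + W.a₁ * x + W.a₃) < 1 ∧
    v (3 * x ^ 2 + 2 * W.a₂ * x + W.a₄ - W.a₁ * y) < 1

variable {v W}

theorem IntCoeff.vle_y (hI : IntCoeff v W) {x y : K} (h : W.Equation x y) (hx : v x ≤ 1) :
    v y ≤ 1 := by
  rw [W.equation_iff] at h
  refine vle_of_quad (b := W.a₁ * x + W.a₃)
    (c := x ^ 3 + W.a₂ * x ^ 2 + W.a₄ * x + W.a₆) ?_ ?_ (by linear_combination h)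
  · exact vle_add (vle_mul hI.a₁ hx) hI.a₃
  · exact vle_add (vle_add (vle_add (vle_pow hx 3) (vle_mul hI.a₂ (vle_pow hx 2)))
      (vle_mul hI.a₄ hx)) hI.a₆

theorem Sing.translate (hI : IntCoeff v W) {x y X Y : K} (h : Sing v W x y) (hX : v X < 1)
    (hY : v Y < 1) : Sing v W (x + X) (y + Y) := by
  obtain ⟨hx, hy, hψ, hω⟩ := h
  refine ⟨vle_add hx hX.le, vle_add hy hY.le, ?_, ?_⟩
  · have : 2 * (y + Y) + W.a₁ * (x + X) + W.a₃ =
        (2 * y + W.a₁ * x + W.a₃) + (2 * Y + W.a₁ * X) := by ring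
    rw [this]
    exact vlt_add hψ (vlt_add (vlt_mul_right vle_two hY) (vlt_mul_right hI.a₁ hX))
  · have : 3 * (x + X) ^ 2 + 2 * W.a₂ * (x + X) + W.a₄ - W.a₁ * (y + Y) =
        (3 * x ^ 2 + 2 * W.a₂ * x + W.a₄ - W.a₁ * y) +
          ((3 * (2 * x + X) + 2 * W.a₂) * X - W.a₁ * Y) := by ring
    rw [this]
    refine vlt_add hω (vlt_sub (vlt_mul_right ?_ hX) (vlt_mul_right hI.a₁ hY))
    exact vle_add (vle_mul vle_three (vle_add (vle_mul vle_two hx) hX.le)) (vle_mul vle_two hI.a₂)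

theorem Sing.negY (hI : IntCoeff v W) {x y : K} (h : Sing v W x y) : Sing v W x (W.negY x y) := by
  obtain ⟨hx, hy, hψ, hω⟩ := h
  refine ⟨hx, ?_, ?_, ?_⟩
  · rw [Affine.negY]
    exact vle_sub (vle_sub (vle_neg hy) (vle_mul hI.a₁ hx)) hI.a₃
  · have : 2 * W.negY x y + W.a₁ * x + W.a₃ = -(2 * y + W.a₁ * x + W.a₃) := by
      rw [Affine.negY]; ring
    rw [this]; exact vlt_neg hψ
  · have : 3 * x ^ 2 + 2 * W.a₂ * x + W.a₄ - W.a₁ * W.negY x y =
        (3 * x ^ 2 + 2 * W.a₂ * x + W.a₄ - W.a₁ * y) + W.a₁ * (2 * y + W.a₁ * x + W.a₃) := by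
      rw [Affine.negY]; ring
    rw [this]; exact vlt_add hω (vlt_mul_right hI.a₁ hψ)

theorem sing_negY_iff (hI : IntCoeff v W) {x y : K} : Sing v W x (W.negY x y) ↔ Sing v W x y :=
  ⟨fun h => by simpa only [Affine.negY_negY] using h.negY hI, fun h => h.negY hI⟩

/-- auxiliary: the smaller root of `T² - s T + t`, `v s = (v l)²`, `v t < v l`, `1 < v l`. -/
theorem aux_small_root {l s t X X' : K} (hl : 1 < v l) (hs : v s = v l ^ 2) (ht : v t < v l)
    (hsum : X + X' = s) (hprod : X * X' = t) (hle : v X ≤ v X') :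
    v X < 1 ∧ v (l * X) < 1 := by
  have hl0 : 0 < v l := zero_lt_one.trans hl
  have h1 : v l ^ 2 ≤ v X' := by
    rw [← hs, ← hsum]
    exact (v.map_add X X').trans (max_le hle le_rfl)
  have h2 : v X * v l ^ 2 < v l := by
    calc v X * v l ^ 2 ≤ v X * v X' := mul_le_mul_right h1 _
      _ = v t := by rw [← map_mul, hprod]
      _ < v l := ht
  have h3 : v (l * X) < 1 := by
    rw [map_mul]
    have : (v l * v X) * v l < 1 * v l := by
      calc (v l * v X) * v l = v X * v l ^ 2 := by rw [sq, mul_comm (v l) (v X), mul_assoc]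
        _ < v l := h2
        _ = 1 * v l := (one_mul _).symm
    exact lt_of_mul_lt_mul_right' this
  refine ⟨lt_of_le_of_lt ?_ h3, h3⟩
  rw [map_mul]
  calc v X = 1 * v X := (one_mul _).symm
    _ ≤ v l * v X := mul_le_mul_left hl.le _

/-- **Three points on a line.**  If `(x₁,y₁)`, `(x₂,y₂)`, `(x₃,y₃)` are the three intersection points
of `W` with the line of slope `l` and the first two do not reduce to a singular point, neither does the
third. -/
theorem not_sing_third (hI : IntCoeff v W) {x₁ y₁ x₂ y₂ x₃ y₃ l : K}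
    (e₁ : W.Equation x₁ y₁) (e₃ : W.Equation x₃ y₃)
    (hx : x₁ + x₂ + x₃ = l ^ 2 + W.a₁ * l - W.a₂)
    (hy₁ : y₁ - y₃ = l * (x₁ - x₃)) (hy₂ : y₂ - y₃ = l * (x₂ - x₃))
    (n₁ : ¬ Sing v W x₁ y₁) (n₂ : ¬ Sing v W x₂ y₂) : ¬ Sing v W x₃ y₃ := by
  intro h₃
  have c₁ : ¬ (v (x₁ - x₃) < 1 ∧ v (l * (x₁ - x₃)) < 1) := by
    rintro ⟨a, b⟩
    apply n₁
    have := h₃.translate hI a b
    rwa [add_sub_cancel, ← hy₁, add_sub_cancel] at this
  have c₂ : ¬ (v (x₂ - x₃) < 1 ∧ v (l * (x₂ - x₃)) < 1) := by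
    rintro ⟨a, b⟩
    apply n₂
    have := h₃.translate hI a b
    rwa [add_sub_cancel, ← hy₂, add_sub_cancel] at this
  have hX₁ : x₁ - x₃ ≠ 0 := by
    intro h0; apply c₁; rw [h0]; simp
  obtain ⟨hx₃, hy₃, hψ, hω⟩ := h₃
  set ψ := 2 * y₃ + W.a₁ * x₃ + W.a₃ with hψdef
  set ω := 3 * x₃ ^ 2 + 2 * W.a₂ * x₃ + W.a₄ - W.a₁ * y₃ with hωdef
  have hsum : (x₁ - x₃) + (x₂ - x₃) = l ^ 2 + (W.a₁ * l - W.a₂ - 3 * x₃) := by
    linear_combination hx
  have hprod : (x₁ - x₃) * (x₂ - x₃) = ω - ψ * l := by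
    rw [W.equation_iff] at e₁ e₃
    have hy : y₁ = y₃ + l * (x₁ - x₃) := by linear_combination hy₁
    have hx₂ : x₂ = l ^ 2 + W.a₁ * l - W.a₂ - x₁ - x₃ := by linear_combination hx
    apply mul_left_cancel₀ hX₁
    rw [hψdef, hωdef, hx₂]
    rw [hy] at e₁
    linear_combination e₁ - e₃
  rcases le_or_gt (v l) 1 with hl | hl
  · -- integral slope
    have ht : v ((x₁ - x₃) * (x₂ - x₃)) < 1 := by
      rw [hprod]; exact vlt_sub hω (vlt_mul_left hψ hl)
    have hs : v ((x₁ - x₃) + (x₂ - x₃)) ≤ 1 := by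
      rw [hsum]
      exact vle_add (vle_pow hl 2) (vle_sub (vle_sub (vle_mul hI.a₁ hl) hI.a₂)
        (vle_mul vle_three hx₃))
    have i₁ : v (x₁ - x₃) ≤ 1 := vle_of_add_mul hs ht.le
    have i₂ : v (x₂ - x₃) ≤ 1 := by
      rw [add_comm] at hs
      rw [mul_comm] at ht
      exact vle_of_add_mul hs ht.le
    by_cases s₁ : v (x₁ - x₃) < 1
    · exact c₁ ⟨s₁, vlt_mul_right hl s₁⟩
    · by_cases s₂ : v (x₂ - x₃) < 1
      · exact c₂ ⟨s₂, vlt_mul_right hl s₂⟩
      · have u₁ : v (x₁ - x₃) = 1 := le_antisymm i₁ (not_lt.1 s₁)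
        have u₂ : v (x₂ - x₃) = 1 := le_antisymm i₂ (not_lt.1 s₂)
        rw [map_mul, u₁, u₂, one_mul] at ht
        exact lt_irrefl _ ht
  · -- non integral slope
    have hl0 : 0 < v l := zero_lt_one.trans hl
    have hll : v l < v l ^ 2 := by
      rw [sq]; exact lt_mul_of_one_lt_left hl0 hl
    have hrest : v (W.a₁ * l - W.a₂ - 3 * x₃) ≤ v l := by
      refine (v.map_sub _ _).trans (max_le ((v.map_sub _ _).trans (max_le ?_ ?_)) ?_)
      · rw [map_mul]
        calc v W.a₁ * v l ≤ 1 * v l := mul_le_mul_left hI.a₁ _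
          _ = v l := one_mul _
      · exact hI.a₂.trans hl.le
      · exact (vle_mul vle_three hx₃).trans hl.le
    have hs : v (l ^ 2 + (W.a₁ * l - W.a₂ - 3 * x₃)) = v l ^ 2 := by
      rw [Valuation.map_add_eq_of_lt_left v (by rw [map_pow]; exact lt_of_le_of_lt hrest hll),
        map_pow]
    have ht : v (ω - ψ * l) < v l := by
      refine Valuation.map_sub_lt v (hω.trans hl) ?_
      rw [map_mul]
      calc v ψ * v l < 1 * v l := mul_lt_mul_of_pos_right hψ hl0
        _ = v l := one_mul _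
    rcases le_total (v (x₁ - x₃)) (v (x₂ - x₃)) with h | h
    · exact c₁ (aux_small_root hl hs ht hsum hprod h)
    · exact c₂ (aux_small_root hl hs ht (by rw [add_comm]; exact hsum)
        (by rw [mul_comm]; exact hprod) h)

/-- **Doubling.**  If `(x, y)` is integral, does not reduce to a singular point and
`ψ = 2 y + a₁ x + a₃` is a nonzero nonunit, then the `x`-coordinate `l² + a₁ l - a₂ - 2 x`,
`l = ω / ψ`, of the double is not integral. -/
theorem one_lt_val_double (hI : IntCoeff v W) {x y : K} (hx : v x ≤ 1) (hy : v y ≤ 1)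
    (n : ¬ Sing v W x y) (hψ : v (2 * y + W.a₁ * x + W.a₃) < 1)
    (hψ0 : 2 * y + W.a₁ * x + W.a₃ ≠ 0) {l : K}
    (hl : l = (3 * x ^ 2 + 2 * W.a₂ * x + W.a₄ - W.a₁ * y) / (2 * y + W.a₁ * x + W.a₃)) :
    1 < v (l ^ 2 + W.a₁ * l - W.a₂ - x - x) := by
  have hω : v (3 * x ^ 2 + 2 * W.a₂ * x + W.a₄ - W.a₁ * y) = 1 := by
    refine le_antisymm ?_ ?_
    · exact vle_sub (vle_add (vle_add (vle_mul vle_three (vle_pow hx 2))
        (vle_mul (vle_mul vle_two hI.a₂) hx)) hI.a₄) (vle_mul hI.a₁ hy)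
    · by_contra h
      exact n ⟨hx, hy, hψ, not_le.1 h⟩
  have hψ0' : 0 < v (2 * y + W.a₁ * x + W.a₃) := zero_lt_iff.2 ((Valuation.ne_zero_iff v).2 hψ0)
  have hl1 : 1 < v l := by
    rw [hl, map_div₀, hω, one_div]
    exact (one_lt_inv₀ hψ0').2 hψ
  have hl0 : 0 < v l := zero_lt_one.trans hl1
  have hll : v l < v l ^ 2 := by
    rw [sq]; exact lt_mul_of_one_lt_left hl0 hl1
  have hrest : v (W.a₁ * l - W.a₂ - x - x) ≤ v l := by
    refine (v.map_sub _ _).trans (max_le ((v.map_sub _ _).trans (max_le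
      ((v.map_sub _ _).trans (max_le ?_ ?_)) ?_)) ?_)
    · rw [map_mul]
      calc v W.a₁ * v l ≤ 1 * v l := mul_le_mul_left hI.a₁ _
        _ = v l := one_mul _
    · exact hI.a₂.trans hl1.le
    · exact hx.trans hl1.le
    · exact hx.trans hl1.le
  have : l ^ 2 + W.a₁ * l - W.a₂ - x - x = l ^ 2 + (W.a₁ * l - W.a₂ - x - x) := by ring
  rw [this, Valuation.map_add_eq_of_lt_left v (by rw [map_pow]; exact lt_of_le_of_lt hrest hll),
    map_pow]
  exact hl1.trans hll

end Fermat.Agent.S15.Dict.LocZ
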